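/-
S20, package JET (helper91): q_N-coefficients of coset translates, the jet vector, division by Δ.
-/
import Fermat.Agent.S20.Defs

set_option autoImplicit false

open UpperHalfPlane ModularForm CongruenceSubgroup Matrix.SpecialLinearGroup Filter Function
open scoped MatrixGroups ModularForm Manifold Topology Real

noncomputable section

namespace Fermat.Agent.S20.H91

local notation "𝕢" => Periodic.qParam

/-! ### Generic lemmas on periodic holomorphic bounded functions on `ℍ` -/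

/-- Periodic (period `h`), holomorphic and bounded at `i∞`. -/
structure PHB (h : ℝ) (φ : ℍ → ℂ) : Prop where
  per : Periodic (φ ∘ ofComplex) h
  hol : MDiff φ
  bdd : IsBoundedAtImInfty φ

lemma PHB.analyticAt {h : ℝ} {φ : ℍ → ℂ} (hφ : PHB h φ) (hh : 0 < h) :
    AnalyticAt ℂ (cuspFunction h φ) 0 :=
  analyticAt_cuspFunction_zero hh hφ.per hφ.hol hφ.bdd

lemma PHB.hasSum {h : ℝ} {φ : ℍ → ℂ} (hφ : PHB h φ) (hh : 0 < h) (τ : ℍ) :
    HasSum (fun m : ℕ ↦ (qExpansion h φ).coeff m • 𝕢 h τ ^ m) (φ τ) :=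
  hasSum_qExpansion hh hφ.per hφ.hol hφ.bdd τ

/-- Uniqueness of `q`-expansion coefficients (function version). -/
lemma PHB.coeff_unique {h : ℝ} {φ : ℍ → ℂ} (hφ : PHB h φ) (hh : 0 < h) {c : ℕ → ℂ}
    (hc : ∀ τ : ℍ, HasSum (fun m : ℕ ↦ c m • 𝕢 h τ ^ m) (φ τ)) (m : ℕ) :
    c m = (qExpansion h φ).coeff m := by
  have h1 := (hasFPowerSeriesOnBall_cuspFunction hh (hφ.analyticAt hh) hc).hasFPowerSeriesAt
  have h2 := (hasFPowerSeriesOnBall_cuspFunction hh (hφ.analyticAt hh)
    (hφ.hasSum hh)).hasFPowerSeriesAt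
  simpa [FormalMultilinearSeries.coeff_ofScalars] using
    congr_arg (FormalMultilinearSeries.coeff · m) (h1.eq_formalMultilinearSeries h2)

/-- The translate `τ ↦ φ (1 + τ)`. -/
def shiftOne (φ : ℍ → ℂ) : ℍ → ℂ := fun τ ↦ φ ((1 : ℝ) +ᵥ τ)

lemma qParam_vadd_one (h : ℝ) (τ : ℍ) :
    𝕢 h (((1 : ℝ) +ᵥ τ : ℍ) : ℂ) = Complex.exp (2 * π * Complex.I / h) * 𝕢 h τ := by
  rw [Periodic.qParam, Periodic.qParam, ← Complex.exp_add]
  congr 1
  rw [UpperHalfPlane.coe_vadd]
  push_cast
  ring

lemma shiftOne_eq_slash (φ : ℍ → ℂ) (k : ℤ) : shiftOne φ = φ ∣[k] ModularGroup.T := by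
  funext τ
  rw [shiftOne, SL_slash_apply, denom, modular_T_smul, ModularGroup.T]
  simp

lemma PHB.shift {h : ℝ} {φ : ℍ → ℂ} (hφ : PHB h φ) : PHB h (shiftOne φ) where
  per := by
    intro w
    by_cases hw : 0 < w.im
    · have hw' : 0 < (w + h).im := by simpa using hw
      have h1 : 0 < ((1 : ℂ) + w).im := by simpa using hw
      have e1 : ((1 : ℝ) +ᵥ ofComplex (w + h) : ℍ) = ofComplex ((1 + w) + h) := by
        ext
        rw [UpperHalfPlane.coe_vadd, ofComplex_apply_of_im_pos hw',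
          ofComplex_apply_of_im_pos (by simpa using hw)]
        push_cast
        ring
      have e2 : ((1 : ℝ) +ᵥ ofComplex w : ℍ) = ofComplex (1 + w) := by
        ext
        rw [UpperHalfPlane.coe_vadd, ofComplex_apply_of_im_pos hw, ofComplex_apply_of_im_pos h1]
        push_cast
        ring
      simp only [comp_apply, shiftOne, e1, e2]
      exact hφ.per (1 + w)
    · have hw' : (w + h).im ≤ 0 := by simpa using not_lt.mp hw
      simp only [comp_apply, ofComplex_apply_of_im_nonpos hw',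
        ofComplex_apply_of_im_nonpos (not_lt.mp hw)]
  hol := by
    rw [shiftOne_eq_slash φ 0, SL_slash]
    exact hφ.hol.slash 0 _
  bdd := by
    rw [shiftOne_eq_slash φ 0, SL_slash]
    exact hφ.bdd.slash 0 (by simp [ModularGroup.T])

/-- Fourier coefficients of the translate by `1`. -/
lemma PHB.coeff_shift {h : ℝ} {φ : ℍ → ℂ} (hφ : PHB h φ) (hh : 0 < h) (m : ℕ) :
    (qExpansion h (shiftOne φ)).coeff m =
      Complex.exp (2 * π * Complex.I / h) ^ m * (qExpansion h φ).coeff m := by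
  refine (hφ.shift.coeff_unique hh (c := fun m ↦
    Complex.exp (2 * π * Complex.I / h) ^ m * (qExpansion h φ).coeff m) (fun τ ↦ ?_) m).symm
  have := hφ.hasSum hh ((1 : ℝ) +ᵥ τ)
  rw [qParam_vadd_one] at this
  convert this using 2 with j
  · simp only [smul_eq_mul, mul_pow]
    ring
  · rfl

/-! ### Coset translates -/

variable {N : ℕ} {k : ℤ}

lemma Gamma_le_Gamma0' (N : ℕ) : Gamma N ≤ Gamma0 N :=
  fun _ hγ ↦ Gamma0_mem.mpr (Gamma_mem.mp hγ).2.2.1

/-- `T ^ N` acts trivially on `X N`. -/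
lemma T_zpow_N_smul (c : X N) : (ModularGroup.T ^ (N : ℤ)) • c = c := by
  induction c using QuotientGroup.induction_on with
  | H g =>
    rw [MulAction.Quotient.smul_mk]
    refine (QuotientGroup.eq.mpr ?_).symm
    apply Gamma_le_Gamma0' N
    have h1 : ModularGroup.T ^ (N : ℤ) ∈ Gamma N := by
      simpa using ModularGroup_T_pow_mem_Gamma (N : ℤ) (N : ℤ) dvd_rfl
    have h2 := (Gamma_normal N).conj_mem _ h1 g⁻¹
    simpa [mul_assoc] using h2

lemma denom_T_zpow (n : ℤ) (τ : ℍ) : denom (ModularGroup.T ^ n : SL(2, ℤ)) τ = 1 := by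
  rw [ModularGroup.denom_apply]
  have h1 : (ModularGroup.T ^ n : SL(2, ℤ)) 1 0 = 0 := by
    rw [ModularGroup.coe_T_zpow]; rfl
  have h2 : (ModularGroup.T ^ n : SL(2, ℤ)) 1 1 = 1 := by
    rw [ModularGroup.coe_T_zpow]; rfl
  rw [h1, h2]; simp

section SIF
variable {F : Type*} [FunLike F ℍ ℂ] [SlashInvariantFormClass F (Γ0 N) k] (f : F)

lemma cosetFun_T_zpow_smul (n : ℤ) (c : X N) (τ : ℍ) :
    cosetFun f c (ModularGroup.T ^ n • τ) = cosetFun f ((ModularGroup.T ^ n)⁻¹ • c) τ := by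
  rw [cosetFun_smul_apply, denom_T_zpow, one_zpow, one_mul]

lemma shiftOne_cosetFun (c : X N) :
    shiftOne (cosetFun f c) = cosetFun f (ModularGroup.T⁻¹ • c) := by
  rw [shiftOne_eq_slash _ k, cosetFun_slash]

lemma cosetFun_periodic' (c : X N) : Periodic (cosetFun f c ∘ ofComplex) (N : ℝ) := by
  intro w
  by_cases hw : 0 < w.im
  · have hw' : 0 < (w + (N : ℝ)).im := by simpa using hw
    have e1 : ofComplex (w + (N : ℝ)) = ModularGroup.T ^ (N : ℤ) • ofComplex w := by
      ext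
      rw [ModularGroup.coe_T_zpow_smul_eq, ofComplex_apply_of_im_pos hw',
        ofComplex_apply_of_im_pos hw]
      simp
    simp only [comp_apply, e1, cosetFun_T_zpow_smul]
    rw [inv_smul_eq_iff.mpr (T_zpow_N_smul c).symm]
  · have hw' : (w + (N : ℝ)).im ≤ 0 := by simpa using not_lt.mp hw
    simp only [comp_apply, ofComplex_apply_of_im_nonpos hw',
      ofComplex_apply_of_im_nonpos (not_lt.mp hw)]

end SIF

/-! ### Roots of unity: orthogonality -/

/-- The primitive `N`-th root of unity `exp (2 π i / N)`. -/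
def zetaN (N : ℕ) : ℂ := Complex.exp (2 * π * Complex.I / N)

lemma zetaN_isPrimitiveRoot (N : ℕ) [NeZero N] : IsPrimitiveRoot (zetaN N) N :=
  Complex.isPrimitiveRoot_exp N (NeZero.ne N)

lemma zetaN_ne_zero (N : ℕ) : zetaN N ≠ 0 := Complex.exp_ne_zero _

lemma sum_zetaN_pow (N : ℕ) [NeZero N] {r s : ℕ} (hr : r < N) (hs : s < N) :
    ∑ m ∈ Finset.range N, (zetaN N ^ s * (zetaN N)⁻¹ ^ r) ^ m = if r = s then (N : ℂ) else 0 := by
  have hζ := zetaN_isPrimitiveRoot N
  have hz := zetaN_ne_zero N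
  split_ifs with h
  · subst h
    rw [inv_pow, mul_inv_cancel₀ (pow_ne_zero _ hz)]
    simp
  · set w := zetaN N ^ s * (zetaN N)⁻¹ ^ r with hw
    have h1 : w ≠ 1 := by
      intro h1
      apply h
      refine hζ.pow_inj hr hs ?_
      have : zetaN N ^ s = zetaN N ^ r := by
        have h2 : w * zetaN N ^ r = zetaN N ^ s := by
          rw [hw, inv_pow, mul_assoc, inv_mul_cancel₀ (pow_ne_zero _ hz), mul_one]
        rw [← h2, h1, one_mul]
      exact this.symm
    have h2 : w ^ N = 1 := by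
      rw [hw, mul_pow, ← pow_mul, ← pow_mul, mul_comm s N, mul_comm r N, pow_mul, pow_mul,
        inv_pow, hζ.pow_eq_one]
      simp
    have h3 := mul_geom_sum w N
    rw [h2, sub_self] at h3
    exact (mul_eq_zero.mp h3).resolve_left (sub_ne_zero.mpr h1)

/-- Discrete Fourier inversion on `range N`. -/
lemma dft_inversion (N : ℕ) [NeZero N] (a : ℕ → ℂ) {s : ℕ} (hs : s < N) :
    ∑ m ∈ Finset.range N, (zetaN N ^ s) ^ m *
      (∑ r ∈ Finset.range N, ((zetaN N)⁻¹ ^ r) ^ m * a r) = N * a s := by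
  simp_rw [Finset.mul_sum]
  rw [Finset.sum_comm]
  have : ∀ r ∈ Finset.range N, ∑ m ∈ Finset.range N,
      (zetaN N ^ s) ^ m * (((zetaN N)⁻¹ ^ r) ^ m * a r) = (if r = s then (N : ℂ) else 0) * a r := by
    intro r hr
    rw [← sum_zetaN_pow N (Finset.mem_range.mp hr) hs, Finset.sum_mul]
    refine Finset.sum_congr rfl fun m _ ↦ ?_
    rw [mul_pow]; ring
  rw [Finset.sum_congr rfl this]
  simp [Finset.sum_ite_eq', hs]

/-! ### Coefficients of coset translates -/

section MF
variable [NeZero N] {F : Type*} [FunLike F ℍ ℂ] [ModularFormClass F (Γ0 N) k] (f : F)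

lemma natCast_pos' : (0 : ℝ) < (N : ℝ) := Nat.cast_pos.mpr (NeZero.pos N)

lemma phb_cosetFun (c : X N) : PHB (N : ℝ) (cosetFun f c) :=
  ⟨cosetFun_periodic' f c, mdifferentiable_cosetFun f c, isBoundedAtImInfty_cosetFun f c⟩

/-- The `r`-th coefficient in `q_N = exp (2 π i τ / N)` of the coset translate `cosetFun f c`. -/
def coeffN (f : F) (c : X N) (r : ℕ) : ℂ := (qExpansion (N : ℝ) (cosetFun f c)).coeff r

omit [NeZero N] in
lemma jetVec_apply (c : X N) : jetVec f c = ∑ r ∈ Finset.range N, coeffN f c r := rfl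

lemma limVec_eq_coeffN_zero (c : X N) : limVec f c = coeffN f c 0 :=
  (qExpansion_coeff_zero natCast_pos' ((phb_cosetFun f c).analyticAt natCast_pos')
    (phb_cosetFun f c).per).symm

lemma coeffN_T_inv_smul (c : X N) (r : ℕ) :
    coeffN f (ModularGroup.T⁻¹ • c) r = zetaN N ^ r * coeffN f c r := by
  rw [coeffN, ← shiftOne_cosetFun, (phb_cosetFun f c).coeff_shift natCast_pos' r, zetaN, coeffN]
  push_cast
  rfl

lemma coeffN_T_smul (c : X N) (r : ℕ) :
    coeffN f (ModularGroup.T • c) r = (zetaN N)⁻¹ ^ r * coeffN f c r := by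
  have h := coeffN_T_inv_smul f (ModularGroup.T • c) r
  rw [inv_smul_smul] at h
  rw [h, ← mul_assoc, inv_pow, inv_mul_cancel₀ (pow_ne_zero _ (zetaN_ne_zero N)), one_mul]

lemma coeffN_T_pow_smul (m : ℕ) (c : X N) (r : ℕ) :
    coeffN f (ModularGroup.T ^ m • c) r = ((zetaN N)⁻¹ ^ r) ^ m * coeffN f c r := by
  induction m with
  | zero => simp
  | succ m ih => rw [pow_succ', mul_smul, coeffN_T_smul, ih, pow_succ']; ring

lemma jetVec_T_pow_smul (m : ℕ) (c : X N) :
    jetVec f (ModularGroup.T ^ m • c) =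
      ∑ r ∈ Finset.range N, ((zetaN N)⁻¹ ^ r) ^ m * coeffN f c r := by
  rw [jetVec_apply]
  exact Finset.sum_congr rfl fun r _ ↦ coeffN_T_pow_smul f m c r

/-- Fourier inversion along the `T`-orbit: the coefficients are recovered from the jet vector. -/
lemma sum_zeta_pow_mul_jetVec (c : X N) {s : ℕ} (hs : s < N) :
    ∑ m ∈ Finset.range N, (zetaN N ^ s) ^ m * jetVec f (ModularGroup.T ^ m • c) =
      N * coeffN f c s := by
  simp_rw [jetVec_T_pow_smul]
  exact dft_inversion N (coeffN f c) hs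

/-- **J2.** Averaging the jet vector over the `T`-orbit gives the cusp value. -/
theorem sum_jetVec_T_pow (c : X N) :
    ∑ m ∈ Finset.range N, jetVec f (ModularGroup.T ^ m • c) = N * limVec f c := by
  have h := sum_zeta_pow_mul_jetVec f c (NeZero.pos N)
  simpa [limVec_eq_coeffN_zero] using h

/-- **J3.** The jet vector vanishes iff all coefficients of index `< N` of all coset translates
vanish. -/
theorem jetVec_eq_zero_iff : jetVec f = 0 ↔ ∀ (c : X N), ∀ r < N, coeffN f c r = 0 := by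
  constructor
  · intro h c r hr
    have h1 := sum_zeta_pow_mul_jetVec f c hr
    simp only [h, Pi.zero_apply, mul_zero, Finset.sum_const_zero] at h1
    have hN : (N : ℂ) ≠ 0 := Nat.cast_ne_zero.mpr (NeZero.ne N)
    exact (mul_eq_zero.mp h1.symm).resolve_left hN
  · intro h
    funext c
    rw [jetVec_apply]
    exact Finset.sum_eq_zero fun r hr ↦ h c r (Finset.mem_range.mp hr)

end MF

/-! ### Linearity of the jet vector -/

section Linear
variable [NeZero N]

omit [NeZero N] in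
lemma cosetFun_add' (f g : ModularForm (Γ0 N) k) (c : X N) :
    cosetFun (f + g) c = cosetFun f c + cosetFun g c := by
  induction c using QuotientGroup.induction_on with
  | H γ => simp only [cosetFun_mk, FunLike.coe_add, SlashAction.add_slash]

omit [NeZero N] in
lemma cosetFun_smul' (a : ℂ) (f : ModularForm (Γ0 N) k) (c : X N) :
    cosetFun (a • f) c = a • cosetFun f c := by
  induction c using QuotientGroup.induction_on with
  | H γ => simp only [cosetFun_mk, FunLike.coe_smul, SL_smul_slash]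

lemma coeffN_add (f g : ModularForm (Γ0 N) k) (c : X N) (r : ℕ) :
    coeffN (f + g) c r = coeffN f c r + coeffN g c r := by
  rw [coeffN, cosetFun_add', qExpansion_add ((phb_cosetFun f c).analyticAt natCast_pos')
    ((phb_cosetFun g c).analyticAt natCast_pos'), map_add]
  rfl

lemma coeffN_smul (a : ℂ) (f : ModularForm (Γ0 N) k) (c : X N) (r : ℕ) :
    coeffN (a • f) c r = a * coeffN f c r := by
  rw [coeffN, cosetFun_smul', qExpansion_smul ((phb_cosetFun f c).analyticAt natCast_pos')]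
  simp [coeffN]

/-- **J0.** The jet vector is additive. -/
theorem jetVec_add (f g : ModularForm (Γ0 N) k) : jetVec (f + g) = jetVec f + jetVec g := by
  funext c
  simp only [jetVec_apply, Pi.add_apply, coeffN_add, Finset.sum_add_distrib]

/-- **J0.** The jet vector is homogeneous. -/
theorem jetVec_smul (a : ℂ) (f : ModularForm (Γ0 N) k) : jetVec (a • f) = a • jetVec f := by
  funext c
  simp only [jetVec_apply, Pi.smul_apply, coeffN_smul, Finset.mul_sum, smul_eq_mul]

theorem jetVec_zero : jetVec (0 : ModularForm (Γ0 N) k) = 0 := by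
  have := jetVec_smul (0 : ℂ) (0 : ModularForm (Γ0 N) k)
  simpa using this

theorem jetVec_sum {ι : Type*} (s : Finset ι) (f : ι → ModularForm (Γ0 N) k) :
    jetVec (∑ i ∈ s, f i) = ∑ i ∈ s, jetVec (f i) := by
  classical
  induction s using Finset.induction_on with
  | empty => simpa using jetVec_zero
  | insert i t hi ih => rw [Finset.sum_insert hi, Finset.sum_insert hi, jetVec_add, ih]

end Linear

/-! ### Multiplication by `1`-periodic functions (level-one forms) -/

lemma PHB.of_one {ρ : ℍ → ℂ} (hρ : PHB 1 ρ) (N : ℕ) : PHB (N : ℝ) ρ :=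
  ⟨by simpa using hρ.per.nat_mul N, hρ.hol, hρ.bdd⟩

lemma PHB.shiftOne_eq {ρ : ℍ → ℂ} (hρ : PHB 1 ρ) : shiftOne ρ = ρ := by
  funext τ
  have h := hρ.per (τ : ℂ)
  simp only [comp_apply] at h
  have e : ofComplex ((τ : ℂ) + (1 : ℝ)) = (1 : ℝ) +ᵥ τ := by
    ext
    rw [ofComplex_apply_of_im_pos (by simpa using τ.im_pos), UpperHalfPlane.coe_vadd]
    push_cast
    ring
  rw [e, ofComplex_apply] at h
  exact h

lemma PHB.coeff_eq_zero_of_lt {ρ : ℍ → ℂ} (hρ : PHB 1 ρ) [NeZero N] {j : ℕ} (hj0 : 0 < j)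
    (hj : j < N) : (qExpansion (N : ℝ) ρ).coeff j = 0 := by
  have h1 := (hρ.of_one N).coeff_shift natCast_pos' j
  rw [hρ.shiftOne_eq] at h1
  have hne : zetaN N ^ j ≠ 1 := (zetaN_isPrimitiveRoot N).pow_ne_one_of_pos_of_lt hj0.ne' hj
  have h2 : (qExpansion (N : ℝ) ρ).coeff j = zetaN N ^ j * (qExpansion (N : ℝ) ρ).coeff j := by
    rw [zetaN]
    push_cast at h1 ⊢
    exact h1
  by_contra ha
  exact hne (mul_right_cancel₀ ha (by rw [one_mul]; exact h2.symm))

lemma phb_levelOne {m : ℤ} (r : ModularForm 𝒮ℒ m) : PHB 1 r :=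
  ⟨SlashInvariantFormClass.periodic_comp_ofComplex r one_mem_strictPeriods_SL,
    ModularFormClass.holo r, ModularFormClass.bdd_at_infty r⟩

section Mul
variable [NeZero N]

theorem coeffN_mul_of_phb_one {ρ : ℍ → ℂ} (hρ : PHB 1 ρ) (f : ModularForm (Γ0 N) k) {l : ℤ}
    (h : ModularForm (Γ0 N) l) (hh : ∀ (c : X N) (τ : ℍ), cosetFun h c τ = ρ τ * cosetFun f c τ)
    (c : X N) {s : ℕ} (hs : s < N) : coeffN h c s = valueAtInfty ρ * coeffN f c s := by
  have e : cosetFun h c = ρ * cosetFun f c := funext (hh c)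
  rw [coeffN, e, qExpansion_mul ((hρ.of_one N).analyticAt natCast_pos')
    ((phb_cosetFun f c).analyticAt natCast_pos'), PowerSeries.coeff_mul,
    Finset.sum_eq_single (0, s)]
  · rw [qExpansion_coeff_zero natCast_pos' ((hρ.of_one N).analyticAt natCast_pos')
      (hρ.of_one N).per]
    rfl
  · rintro ⟨i, j⟩ hij hne
    have hsum : i + j = s := Finset.HasAntidiagonal.mem_antidiagonal.mp hij
    have hi0 : 0 < i := by
      rcases Nat.eq_zero_or_pos i with h0 | h0
      · exfalso
        apply hne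
        subst h0
        simp only [zero_add] at hsum
        rw [hsum]
      · exact h0
    rw [hρ.coeff_eq_zero_of_lt hi0 (by omega), zero_mul]
  · intro hmem
    exact absurd (Finset.HasAntidiagonal.mem_antidiagonal.mpr (zero_add s)) hmem

/-- **J0'.** Multiplying by a level-one form multiplies the jet vector by its value at `i∞`. -/
theorem jetVec_levelOne_mul {m l : ℤ} (r : ModularForm 𝒮ℒ m) (f : ModularForm (Γ0 N) k)
    (h : ModularForm (Γ0 N) l) (hh : ∀ (c : X N) (τ : ℍ), cosetFun h c τ = r τ * cosetFun f c τ) :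
    jetVec h = valueAtInfty r • jetVec f := by
  funext c
  simp only [jetVec_apply, Pi.smul_apply, smul_eq_mul, Finset.mul_sum]
  exact Finset.sum_congr rfl fun s hs ↦
    coeffN_mul_of_phb_one (phb_levelOne r) f h hh c (Finset.mem_range.mp hs)

end Mul

/-! ### Division by the discriminant -/

open Asymptotics in
/-- A periodic holomorphic bounded function whose first `n` coefficients vanish decays like
`|q_h| ^ n`. -/
lemma PHB.isBigO_of_coeff_eq_zero {h : ℝ} {φ : ℍ → ℂ} (hφ : PHB h φ) (hh : 0 < h) (n : ℕ)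
    (h0 : ∀ m < n, (qExpansion h φ).coeff m = 0) :
    φ =O[atImInfty] (fun τ : ℍ ↦ Real.exp (-2 * π * τ.im / h) ^ n) := by
  let ψ : ℍ → ℂ := fun τ ↦ φ τ / 𝕢 h τ ^ n
  have hψ : ∀ τ : ℍ, HasSum (fun m : ℕ ↦ (qExpansion h φ).coeff (m + n) • 𝕢 h τ ^ m) (ψ τ) := by
    intro τ
    have h1 := hφ.hasSum hh τ
    have h2 := (hasSum_nat_add_iff' n).mpr h1
    rw [Finset.sum_eq_zero (fun i hi ↦ by rw [h0 i (Finset.mem_range.mp hi), zero_smul]),
      sub_zero] at h2
    have hq : 𝕢 h τ ≠ 0 := Complex.exp_ne_zero _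
    have h3 := h2.mul_right ((𝕢 h τ ^ n)⁻¹)
    have e1 : (fun m : ℕ ↦ (qExpansion h φ).coeff (m + n) • 𝕢 h τ ^ (m + n) * (𝕢 h τ ^ n)⁻¹) =
        fun m : ℕ ↦ (qExpansion h φ).coeff (m + n) • 𝕢 h τ ^ m := by
      funext m
      rw [pow_add, smul_eq_mul, smul_eq_mul]
      field_simp
    rw [e1] at h3
    exact h3
  have hbdd : IsBoundedAtImInfty ψ := isBoundedAtImInfty_of_hasSum_qExpansion hh hψ
  obtain ⟨C, hC⟩ := hbdd.bound
  refine IsBigO.of_bound C (hC.mono fun τ hτ ↦ ?_)
  have hq : 𝕢 h τ ≠ 0 := Complex.exp_ne_zero _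
  have e : φ τ = ψ τ * 𝕢 h τ ^ n := by
    simp only [ψ]
    field_simp
  have hψC : ‖ψ τ‖ ≤ C := by simpa using hτ
  rw [e, norm_mul, norm_pow, Periodic.norm_qParam, Real.norm_of_nonneg (by positivity),
    UpperHalfPlane.coe_im]
  gcongr

section Div
variable [NeZero N] {F : Type*} [FunLike F ℍ ℂ] [ModularFormClass F (Γ0 N) k] (f : F)

open Asymptotics in
lemma cosetFun_isBigO_discriminant (c : X N) (h0 : ∀ r < N, coeffN f c r = 0) :
    cosetFun f c =O[atImInfty] (discriminant : ℍ → ℂ) := by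
  have h1 := (phb_cosetFun f c).isBigO_of_coeff_eq_zero natCast_pos' N h0
  have h2 : (fun τ : ℍ ↦ Real.exp (-2 * π * τ.im / N) ^ N) =
      fun τ : ℍ ↦ Real.exp (-2 * π * τ.im) := by
    funext τ
    rw [← Real.exp_nat_mul]
    congr 1
    have : (N : ℝ) ≠ 0 := natCast_pos'.ne'
    field_simp
  rw [h2] at h1
  exact h1.trans exp_isBigO_discriminant

end Div

lemma div_discriminant_slash (φ : ℍ → ℂ) (k : ℤ) (γ : SL(2, ℤ)) :
    (fun z ↦ φ z / discriminant z) ∣[k - 12] γ = fun z ↦ (φ ∣[k] γ) z / discriminant z := by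
  have hγ : (γ : GL (Fin 2) ℝ) ∈ 𝒮ℒ := ⟨γ, rfl⟩
  change (φ / ⇑CuspForm.discriminant) ∣[k - 12] γ = _
  rw [div_slash_SL2]
  have : (⇑CuspForm.discriminant) ∣[(12 : ℤ)] γ = ⇑CuspForm.discriminant := by
    rw [SL_slash]
    exact SlashInvariantFormClass.slash_action_eq _ _ hγ
  rw [this]
  rfl

/-- **J1.** A modular form on `Γ₀(N)` with vanishing jet vector is divisible by `Δ`. -/
theorem exists_div_discriminant [NeZero N] (f : ModularForm (Γ0 N) k) (hf : jetVec f = 0) :
    ∃ g : ModularForm (Γ0 N) (k - 12),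
      ∀ (c : X N) (τ : ℍ), cosetFun f c τ = discriminant τ * cosetFun g c τ := by
  have h0 := (jetVec_eq_zero_iff f).mp hf
  let g : ModularForm (Γ0 N) (k - 12) :=
    { toFun := fun z ↦ f z / discriminant z
      slash_action_eq' := by
        rintro _ ⟨γ, hγ, rfl⟩
        have h1 := div_discriminant_slash f k γ
        rw [slash_eq_of_mem_Gamma0 f hγ] at h1
        exact h1
      holo' := f.holo'.div CuspForm.discriminant.holo' discriminant_ne_zero
      bdd_at_cusps' := fun {c} hc ↦ by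
        rw [Subgroup.IsArithmetic.isCusp_iff_isCusp_SL2Z] at hc
        rw [OnePoint.isBoundedAt_iff_forall_SL2Z hc]
        intro γ _
        have hc' : (f : ℍ → ℂ) ∣[k] γ = cosetFun f (QuotientGroup.mk γ⁻¹ : X N) := by
          rw [cosetFun_mk, inv_inv]
        have h1 := div_discriminant_slash f k γ
        rw [hc'] at h1
        rw [show (fun z ↦ f z / discriminant z) ∣[k - 12] γ = _ from h1, IsBoundedAtImInfty,
          BoundedAtFilter]
        exact (Asymptotics.div_isBoundedUnder_of_isBigO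
          (cosetFun_isBigO_discriminant f _ (h0 _))).isBigO_one ℝ }
  refine ⟨g, fun c τ ↦ ?_⟩
  induction c using QuotientGroup.induction_on with
  | H γ =>
    rw [cosetFun_mk, cosetFun_mk]
    have h1 : (⇑g : ℍ → ℂ) ∣[k - 12] γ⁻¹ =
        fun z ↦ ((f : ℍ → ℂ) ∣[k] γ⁻¹) z / discriminant z := div_discriminant_slash f k γ⁻¹
    rw [h1]
    have := discriminant_ne_zero τ
    field_simp

end Fermat.Agent.S20.H91
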